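import Fermat.Agent.S59.TW.Aut.SkelLemmas

/-!
# S59 / TW / AUT, leaf FREE (helper181): the group `Δ_Q`

* `isPGroup_Delta` : `Δ_Q = ∏ (ℤ/q_j)ˣ / (p^{m_j}-th powers)` is a `p`-group;
* `kappa_surjective` : `κ_Q : Γ₀(M_Q) → Δ_Q` is onto;
* `epsQ g e` : the class of `(g_j ^ e_j)_j` in `Δ_Q`; for primitive roots `g_j` the map
  `epsQ g : ∏ Fin (p^{m_j}) → Δ_Q` is bijective (`epsQ_bijective`).
-/

set_option autoImplicit false

namespace Fermat.Agent.S59.TW.Aut.H181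

open CongruenceSubgroup
open Fermat.Agent.S59.TW.H653 Fermat.Agent.S59.TW.Aut
open scoped MatrixGroups

section Delta

variable (p N₀ : ℕ) {r : ℕ} (qv : Fin r → ℕ)

/-- `Δ_Q` is a `p`-group. -/
theorem isPGroup_Delta : IsPGroup p (Delta p qv) := by
  intro x
  obtain ⟨a, rfl⟩ := QuotientGroup.mk_surjective x
  refine ⟨∑ j, padicValNat p (qv j - 1), ?_⟩
  rw [← QuotientGroup.mk_pow, QuotientGroup.eq_one_iff]
  unfold powSub
  rw [Subgroup.mem_pi]
  intro j _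
  refine ⟨a j ^ p ^ ((∑ i, padicValNat p (qv i - 1)) - padicValNat p (qv j - 1)), ?_⟩
  rw [powMonoidHom_apply, ← pow_mul, ← pow_add, Pi.pow_apply]
  congr 2
  exact Nat.sub_add_cancel
    (Finset.single_le_sum (f := fun i => padicValNat p (qv i - 1)) (fun _ _ => Nat.zero_le _)
      (Finset.mem_univ j))

theorem finite_Delta (hprime : ∀ j, (qv j).Prime) : Finite (Delta p qv) := by
  have : ∀ j, NeZero (qv j) := fun j => ⟨(hprime j).ne_zero⟩
  infer_instance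

/-- The order of `Δ_Q` is a power of `p`. -/
theorem card_Delta [Fact p.Prime] (hprime : ∀ j, (qv j).Prime) :
    ∃ a : ℕ, Nat.card (Delta p qv) = p ^ a := by
  have := finite_Delta p qv hprime
  exact IsPGroup.iff_card.mp (isPGroup_Delta p qv)

/-- `κ_Q` is onto. -/
theorem kappa_surjective (hN₀ : N₀ ≠ 0) (hinj : Function.Injective qv)
    (hprime : ∀ j, (qv j).Prime) : Function.Surjective (kappa p N₀ qv) := by
  have hM : NeZero (bLevel N₀ qv) :=
    ⟨Nat.mul_ne_zero hN₀ (Finset.prod_ne_zero_iff.mpr fun j _ => (hprime j).ne_zero)⟩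
  intro δ
  obtain ⟨a, rfl⟩ := QuotientGroup.mk_surjective δ
  obtain ⟨u, rfl⟩ := red_surjective N₀ qv hN₀ hinj hprime a
  obtain ⟨γ, rfl⟩ := dUnit_surjective u
  exact ⟨γ, rfl⟩

/-- `κ_Q` is trivial on `{d ≡ 1}`. -/
theorem kappa_of_d_eq_one (γ : Gamma0 (bLevel N₀ qv))
    (hγ : ((((γ : SL(2, ℤ)) 1 1 : ℤ)) : ZMod (bLevel N₀ qv)) = 1) : kappa p N₀ qv γ = 1 := by
  have h : dUnit (bLevel N₀ qv) γ = 1 := by
    apply Units.ext
    rw [coe_dUnit, hγ, Units.val_one]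
  show chi p N₀ qv (dUnit (bLevel N₀ qv) γ) = 1
  rw [h, map_one]

end Delta

/-! ## Exponents -/

section Eps

variable (p : ℕ) {r : ℕ} (qv : Fin r → ℕ)

/-- `(g_j ^ e_j)_j`. -/
def gPow (g : ∀ j : Fin r, (ZMod (qv j))ˣ)
    (e : ∀ j : Fin r, Fin (p ^ padicValNat p (qv j - 1))) : ∀ j : Fin r, (ZMod (qv j))ˣ :=
  fun j => g j ^ (e j : ℕ)

/-- The class of `(g_j ^ e_j)_j` in `Δ_Q`. -/
def epsQ (g : ∀ j : Fin r, (ZMod (qv j))ˣ)
    (e : ∀ j : Fin r, Fin (p ^ padicValNat p (qv j - 1))) : Delta p qv :=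
  QuotientGroup.mk (gPow p qv g e)

variable {p qv}

theorem card_units_of_prime {q : ℕ} (hq : q.Prime) : Nat.card (ZMod q)ˣ = q - 1 := by
  have : Fact q.Prime := ⟨hq⟩
  rw [Nat.card_eq_fintype_card, ZMod.card_units]

theorem pow_pred_eq_one {q : ℕ} (hq : q.Prime) (x : (ZMod q)ˣ) : x ^ (q - 1) = 1 := by
  have : Fact q.Prime := ⟨hq⟩
  rw [← card_units_of_prime hq]
  exact pow_card_eq_one'

theorem exists_pow_eq_of_orderOf {q : ℕ} (hq : q.Prime) {g : (ZMod q)ˣ}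
    (hg : orderOf g = q - 1) (x : (ZMod q)ˣ) : ∃ n : ℕ, g ^ n = x := by
  have : Fact q.Prime := ⟨hq⟩
  have h1 : Subgroup.zpowers g = ⊤ := by
    apply Subgroup.eq_top_of_card_eq
    rw [Nat.card_zpowers, hg, card_units_of_prime hq]
  have h2 : x ∈ Subgroup.zpowers g := by rw [h1]; trivial
  have h3 : x ∈ Submonoid.powers g := (mem_powers_iff_mem_zpowers).mpr h2
  exact h3

theorem epsQ_surjective [Fact p.Prime] (hprime : ∀ j, (qv j).Prime)
    (g : ∀ j : Fin r, (ZMod (qv j))ˣ) (hg : ∀ j, orderOf (g j) = qv j - 1) :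
    Function.Surjective (epsQ p qv g) := by
  intro δ
  obtain ⟨a, rfl⟩ := QuotientGroup.mk_surjective δ
  choose n hn using fun j => exists_pow_eq_of_orderOf (hprime j) (hg j) (a j)
  have hP : ∀ j, 0 < p ^ padicValNat p (qv j - 1) := fun j =>
    pow_pos (Fact.out : p.Prime).pos _
  refine ⟨fun j => ⟨n j % p ^ padicValNat p (qv j - 1), Nat.mod_lt _ (hP j)⟩, ?_⟩
  unfold epsQ
  rw [QuotientGroup.eq]
  unfold powSub
  rw [Subgroup.mem_pi]
  intro j _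
  refine ⟨g j ^ (n j / p ^ padicValNat p (qv j - 1)), ?_⟩
  rw [powMonoidHom_apply, Pi.mul_apply, Pi.inv_apply, ← hn j]
  show _ = (g j ^ (n j % p ^ padicValNat p (qv j - 1)))⁻¹ * g j ^ n j
  rw [← pow_mul, eq_inv_mul_iff_mul_eq, ← pow_add, mul_comm, Nat.mod_add_div]

theorem epsQ_injective [Fact p.Prime] (hprime : ∀ j, (qv j).Prime)
    (g : ∀ j : Fin r, (ZMod (qv j))ˣ) (hg : ∀ j, orderOf (g j) = qv j - 1) :
    Function.Injective (epsQ p qv g) := by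
  intro e e' h
  unfold epsQ at h
  rw [QuotientGroup.eq] at h
  unfold powSub at h
  rw [Subgroup.mem_pi] at h
  funext j
  obtain ⟨x, hx⟩ := h j (Set.mem_univ j)
  rw [powMonoidHom_apply, Pi.mul_apply, Pi.inv_apply] at hx
  have hx' : g j ^ (e j : ℕ) * x ^ p ^ padicValNat p (qv j - 1) = g j ^ (e' j : ℕ) := by
    rw [hx]
    show g j ^ (e j : ℕ) * ((g j ^ (e j : ℕ))⁻¹ * g j ^ (e' j : ℕ)) = _
    rw [mul_inv_cancel_left]
  -- raise to the power `u = (q - 1) / p ^ m`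
  obtain ⟨u, hu⟩ := (pow_padicValNat_dvd : p ^ padicValNat p (qv j - 1) ∣ qv j - 1)
  have hq1 : qv j - 1 ≠ 0 := by
    have := (hprime j).two_le
    omega
  have hu0 : u ≠ 0 := by
    rintro rfl
    rw [mul_zero] at hu
    exact hq1 hu
  have hxu : (x ^ p ^ padicValNat p (qv j - 1)) ^ u = 1 := by
    rw [← pow_mul, ← hu, pow_pred_eq_one (hprime j)]
  have h1 : g j ^ ((e j : ℕ) * u) = g j ^ ((e' j : ℕ) * u) := by
    rw [pow_mul (g j) (e' j : ℕ) u, ← hx', mul_pow, hxu, mul_one, pow_mul]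
  have h2 := pow_eq_pow_iff_modEq.mp h1
  rw [hg j] at h2
  have h2' : (e j : ℕ) * u ≡ (e' j : ℕ) * u [MOD p ^ padicValNat p (qv j - 1) * u] := by
    rw [← hu]
    exact h2
  have h3 : (e j : ℕ) ≡ (e' j : ℕ) [MOD p ^ padicValNat p (qv j - 1)] :=
    Nat.ModEq.mul_right_cancel' hu0 h2'
  exact Fin.ext (Nat.ModEq.eq_of_lt_of_lt h3 (e j).2 (e' j).2)

theorem epsQ_bijective [Fact p.Prime] (hprime : ∀ j, (qv j).Prime)
    (g : ∀ j : Fin r, (ZMod (qv j))ˣ) (hg : ∀ j, orderOf (g j) = qv j - 1) :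
    Function.Bijective (epsQ p qv g) :=
  ⟨epsQ_injective hprime g hg, epsQ_surjective hprime g hg⟩

end Eps

end Fermat.Agent.S59.TW.Aut.H181
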