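import Fermat.Agent.S41.H952.TorsCore

/-!
# S59 / TW / AUT, leaf FREE (helper181): hypothesis (Ell) of `MFree.free`

* `pow_twelve_eq_one` : every element of finite order of `SL(2, ℤ)` has order dividing `12`;
* `ell_of_coprime` : a homomorphism from a subgroup of `SL(2, ℤ)` to a finite group of order prime
  to `6` is trivial on the elements of finite order.
-/

set_option autoImplicit false

namespace Fermat.Agent.S59.TW.Aut.H181

open Matrix
open scoped MatrixGroups
open Fermat.Agent.S41.H952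

/-- Every element of finite order of `SL(2, ℤ)` has order dividing `12`. -/
theorem pow_twelve_eq_one (g : SL(2, ℤ)) (hg : IsOfFinOrder g) : g ^ 12 = 1 := by
  have hb := abs_tr2_le_two hg
  rw [abs_le] at hb
  have hc := cayley g
  have hcases : tr2 g = 2 ∨ tr2 g = -2 ∨ tr2 g = 0 ∨ tr2 g = 1 ∨ tr2 g = -1 := by omega
  have key : (g.1) ^ 12 = 1 → g ^ 12 = 1 := by
    intro h
    apply Subtype.ext
    simpa using h
  rcases hcases with ht | ht | ht | ht | ht
  · rw [eq_one_of_tr2_eq_two hg ht, one_pow]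
  · have h1 : -g = 1 := eq_one_of_tr2_eq_two (isOfFinOrder_neg hg) (by rw [tr2_neg, ht]; norm_num)
    have h2 : g = -1 := by rw [← h1, neg_neg]
    apply key
    have h3 : g.1 = -1 := by rw [h2]; simp
    rw [h3]
    exact Even.neg_one_pow ⟨6, rfl⟩
  · apply key
    rw [ht, zero_smul, zero_sub] at hc
    have h4 : g.1 ^ 4 = 1 := by
      have : g.1 ^ 4 = (g.1 * g.1) * (g.1 * g.1) := by noncomm_ring
      rw [this, hc]
      simp
    have : g.1 ^ 12 = (g.1 ^ 4) ^ 3 := by rw [← pow_mul]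
    rw [this, h4, one_pow]
  · apply key
    rw [ht, one_smul] at hc
    have h3 : g.1 ^ 3 = -1 := by
      have : g.1 ^ 3 = (g.1 * g.1) * g.1 := by noncomm_ring
      rw [this, hc, sub_mul, hc, one_mul]
      abel
    have : g.1 ^ 12 = (g.1 ^ 3) ^ 4 := by rw [← pow_mul]
    rw [this, h3]
    exact Even.neg_one_pow ⟨2, rfl⟩
  · apply key
    rw [ht] at hc
    have hc' : g.1 * g.1 = - g.1 - 1 := by
      rw [hc]
      simp
    have h3 : g.1 ^ 3 = 1 := by
      have : g.1 ^ 3 = (g.1 * g.1) * g.1 := by noncomm_ring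
      rw [this, hc', sub_mul, neg_mul, hc', one_mul]
      abel
    have : g.1 ^ 12 = (g.1 ^ 3) ^ 4 := by rw [← pow_mul]
    rw [this, h3, one_pow]

/-- **(Ell)** for groups of order prime to `6`. -/
theorem ell_of_coprime {Γ : Subgroup SL(2, ℤ)} {D : Type*} [Group D] [Finite D]
    (hD : Nat.Coprime (Nat.card D) 12) (κ : Γ →* D) (g : Γ) (hg : IsOfFinOrder g) : κ g = 1 := by
  have h1 : IsOfFinOrder (g : SL(2, ℤ)) := by
    rw [isOfFinOrder_iff_pow_eq_one] at hg ⊢
    obtain ⟨n, hn, h⟩ := hg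
    refine ⟨n, hn, ?_⟩
    have := congrArg (fun x : Γ => (x : SL(2, ℤ))) h
    simpa using this
  have h2 : g ^ 12 = 1 := by
    apply Subtype.ext
    rw [Subgroup.coe_pow, pow_twelve_eq_one _ h1]
    rfl
  have h3 : κ g ^ 12 = 1 := by rw [← map_pow, h2, map_one]
  have h4 : κ g ^ Nat.card D = 1 := pow_card_eq_one'
  have h5 := orderOf_dvd_of_pow_eq_one h3
  have h6 := orderOf_dvd_of_pow_eq_one h4
  have h7 : orderOf (κ g) = 1 := Nat.eq_one_of_dvd_coprimes hD h6 h5
  exact orderOf_eq_one_iff.mp h7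

end Fermat.Agent.S59.TW.Aut.H181
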