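import Fermat.Agent.S59.TW.Aut.H181.FreeCore

/-!
# S59 / TW / AUT, leaf FREE (helper181): the adapter `MFree.FreeConclusion → Aut.FreeAt`

The conclusion of every form of M-FREE (`MFree.free`, `H587.free_heckeKer`, and the forms without
hypothesis (Ell)) is `MFree.FreeConclusion κ 𝒪 e`: the image of the projector `e` has an
`𝒪`-basis `conjAct κ (s δ) (b i)`, `δ ∈ D`, for every section `s` of `κ`.  The leaf
`Aut.FreeQStatement` asks for the exponent form `Aut.FreeAt V`: an `𝒪`-basis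
`⟨g^e⟩ b_i`, `e ∈ ∏ Fin (p^{m_j})`, for primitive roots `g_j`.

* `SectionsForm κ 𝒪 V` : the section form, stated on `V` (generic `κ : Γ₀(M) →* D`), with
  `sectionsForm_of_conclusion` and `sectionsForm_of_isLocPart`;
* `freeAt_of_sections` : from the section form at `κ = kappa p N₀ qv`;
* `freeAt_of_conclusion` : from `MFree.FreeConclusion (kappa p N₀ qv) 𝒪 e`, `e` a projector
  onto `V`;
* `freeAtQ_of_conclusion` : the same, concluding `Aut.FreeAt V` (any `p`, any Taylor–Wiles set).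

No hypothesis (Ell), no hypothesis on `p`: this is pure re-indexing.
-/

set_option autoImplicit false

namespace Fermat.Agent.S59.TW.Aut.H181

open CongruenceSubgroup IsLocalRing
open Fermat.Agent.S59.Arch Fermat.Agent.S59.TW.H959
open Fermat.Agent.S59.TW.H653 Fermat.Agent.S59.MFree Fermat.Agent.S59.TW.Aut
open scoped MatrixGroups

/-- The **section form** of freeness over `𝒪[D]` of `V ⊆ X_{ker κ}(𝒪)`: there are
`b_1, …, b_n ∈ V` such that for every section `s` of `κ` the `conjAct κ (s δ) (b i)` are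
`𝒪`-linearly independent and span `V`. -/
def SectionsForm {M : ℕ} {D : Type} [Group D] (κ : Gamma0 M →* D) (𝒪 : Type) [CommRing 𝒪]
    (V : Submodule 𝒪 (Additive (kerSub κ) →+ 𝒪)) : Prop :=
  ∃ (n : ℕ) (b : Fin n → (Additive (kerSub κ) →+ 𝒪)), (∀ i, b i ∈ V) ∧
    ∀ s : D → Gamma0 M, (∀ d, κ (s d) = d) →
      LinearIndependent 𝒪 (fun z : D × Fin n => conjAct κ (s z.1) (b z.2)) ∧
      ∀ x ∈ V, x ∈ Submodule.span 𝒪
        (Set.range fun z : D × Fin n => conjAct κ (s z.1) (b z.2))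

/-- `MFree.FreeConclusion κ 𝒪 e` gives the section form for the image `V` of the projector `e`. -/
theorem sectionsForm_of_conclusion {M : ℕ} {D : Type} [Group D] [Fintype D] (κ : Gamma0 M →* D)
    (𝒪 : Type) [CommRing 𝒪] (V : Submodule 𝒪 (Additive (kerSub κ) →+ 𝒪))
    (e : (Additive (kerSub κ) →+ 𝒪) →ₗ[𝒪] (Additive (kerSub κ) →+ 𝒪))
    (heV : ∀ x, e x ∈ V) (hVe : ∀ x ∈ V, e x = x) (hc : FreeConclusion κ 𝒪 e) :
    SectionsForm κ 𝒪 V := by
  obtain ⟨⟨n, b, hb, hfree⟩, -, -⟩ := hc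
  refine ⟨n, b, fun i => hb i ▸ heV (b i), fun s hs => ?_⟩
  obtain ⟨h1, h2⟩ := hfree s hs
  exact ⟨h1, fun x hx => h2 x (hVe x hx)⟩

/-- The output of `free_of_isLocPart` is the section form. -/
theorem sectionsForm_of_isLocPart (p M l : ℕ) [Fact p.Prime] [Fact l.Prime] (hl : ¬ l ∣ M)
    (hM : M ≠ 0) (D : Type) [Group D] [Fintype D] (κ : Gamma0 M →* D)
    (hκ : Function.Surjective κ) (hcard : ∃ a : ℕ, Fintype.card D = p ^ a)
    (hell : ∀ g : Gamma0 M, IsOfFinOrder g → κ g = 1)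
    (hΓ1 : ∀ γ : Gamma0 M, ((((γ : SL(2, ℤ)) 1 1 : ℤ)) : ZMod M) = 1 → κ γ = 1)
    (𝒪 : Type) [CommRing 𝒪] [IsDomain 𝒪] [IsDiscreteValuationRing 𝒪] [CharZero 𝒪]
    (hp : ¬ IsUnit (p : 𝒪))
    (Tset Uset : Set (ℕ × 𝒪)) (V : Submodule 𝒪 (Additive (kerSub κ) →+ 𝒪))
    (hV : IsLocPart (isMid_kerSub κ hΓ1) Tset Uset V)
    (hs : ∀ y ∈ V, ∃ x ∈ V, TK M (kerSub κ) l x - ((l : 𝒪) + 1) • x = y)
    (hi : ∀ x ∈ V, TK M (kerSub κ) l x - ((l : 𝒪) + 1) • x = 0 → x = 0) :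
    SectionsForm κ 𝒪 V :=
  free_of_isLocPart p M l hl hM D κ hκ hcard hell hΓ1 𝒪 hp Tset Uset V hV hs hi

/-- **Section form ⟹ exponent form.** -/
theorem freeAt_of_sections (p : ℕ) [Fact p.Prime] (N₀ : ℕ) (hN₀ : N₀ ≠ 0) {r : ℕ}
    (qv : Fin r → ℕ) (hinj : Function.Injective qv) (hprime : ∀ j, (qv j).Prime)
    (𝒪 : Type) [CommRing 𝒪]
    (V : Submodule 𝒪 (Additive (KQ p N₀ qv) →+ 𝒪))
    (hfree : SectionsForm (kappa p N₀ qv) 𝒪 V)
    (g : ∀ j : Fin r, (ZMod (qv j))ˣ) (hg : ∀ j, orderOf (g j) = qv j - 1) :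
    ∃ (d : ℕ) (b : Fin d → V), ∀ y : V,
      ∃! a : Fin d → (∀ j : Fin r, Fin (p ^ padicValNat p (qv j - 1))) → 𝒪,
        (y : Additive (KQ p N₀ qv) →+ 𝒪) =
          ∑ i, ∑ e, a i e • diamondU (isMid_KQ p N₀ qv)
            (liftU N₀ qv (fun j => g j ^ (e j : ℕ))) (b i : Additive (KQ p N₀ qv) →+ 𝒪) := by
  classical
  have hM : bLevel N₀ qv ≠ 0 :=
    Nat.mul_ne_zero hN₀ (Finset.prod_ne_zero_iff.mpr fun j _ => (hprime j).ne_zero)
  have hNZ : NeZero (bLevel N₀ qv) := ⟨hM⟩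
  have hfinD : Finite (Delta p qv) := finite_Delta p qv hprime
  let _ : Fintype (Delta p qv) := Fintype.ofFinite _
  have hΓ1 := kappa_of_d_eq_one p N₀ qv
  obtain ⟨n, b, hbV, hfree⟩ := hfree
  -- the exponents
  have hbij := epsQ_bijective (p := p) hprime g hg
  let ε : (∀ j : Fin r, Fin (p ^ padicValNat p (qv j - 1))) ≃ Delta p qv :=
    Equiv.ofBijective _ hbij
  let φ : (∀ j : Fin r, Fin (p ^ padicValNat p (qv j - 1))) ≃ Delta p qv :=
    ε.trans (Equiv.inv (Delta p qv))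
  have hφ : ∀ e, φ e = (epsQ p qv g e)⁻¹ := fun e => rfl
  -- lifts
  let uOfE : (∀ j : Fin r, Fin (p ^ padicValNat p (qv j - 1))) → (ZMod (bLevel N₀ qv))ˣ :=
    fun e => liftU N₀ qv (fun j => g j ^ (e j : ℕ))
  have hchi : ∀ e, chi p N₀ qv (uOfE e) = epsQ p qv g e := by
    intro e
    show QuotientGroup.mk (red N₀ qv (liftU N₀ qv (fun j => g j ^ (e j : ℕ)))) = _
    rw [red_liftU N₀ qv (red_surjective N₀ qv hN₀ hinj hprime _)]
    rfl
  -- the section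
  let s : Delta p qv → Gamma0 (bLevel N₀ qv) :=
    fun δ => (sigma (bLevel N₀ qv) ((uOfE (φ.symm δ) : (ZMod (bLevel N₀ qv))ˣ) :
      ZMod (bLevel N₀ qv)).val)⁻¹
  have hs : ∀ δ, kappa p N₀ qv (s δ) = δ := by
    intro δ
    show chi p N₀ qv (dUnit (bLevel N₀ qv) (s δ)) = δ
    rw [map_inv, dUnit_sigma_val, map_inv, hchi, ← hφ, Equiv.apply_symm_apply]
  obtain ⟨hli, hspan⟩ := hfree s hs
  have hfam : ∀ (δ : Delta p qv) (i : Fin n),
      conjAct (kappa p N₀ qv) (s δ) (b i) =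
        diamondU (isMid_KQ p N₀ qv) (uOfE (φ.symm δ)) (b i) := by
    intro δ i
    rw [conjAct_eq_diamond (kappa p N₀ qv) hΓ1]
    show diamond _ (s δ)⁻¹ (b i) = diamond _ _ (b i)
    rw [inv_inv]
  -- sums
  have hsum : ∀ a : Fin n → (∀ j : Fin r, Fin (p ^ padicValNat p (qv j - 1))) → 𝒪,
      ∑ i, ∑ e, a i e • diamondU (isMid_KQ p N₀ qv) (uOfE e) (b i) =
        ∑ z : Delta p qv × Fin n, a z.2 (φ.symm z.1) •
          conjAct (kappa p N₀ qv) (s z.1) (b z.2) := by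
    intro a
    symm
    calc ∑ z : Delta p qv × Fin n, a z.2 (φ.symm z.1) • conjAct (kappa p N₀ qv) (s z.1) (b z.2)
        = ∑ δ : Delta p qv, ∑ i : Fin n,
            a i (φ.symm δ) • conjAct (kappa p N₀ qv) (s δ) (b i) :=
          Fintype.sum_prod_type _
      _ = ∑ i : Fin n, ∑ δ : Delta p qv,
            a i (φ.symm δ) • conjAct (kappa p N₀ qv) (s δ) (b i) := Finset.sum_comm
      _ = ∑ i : Fin n, ∑ e, a i (φ.symm (φ e)) • conjAct (kappa p N₀ qv) (s (φ e)) (b i) := by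
          refine Finset.sum_congr rfl fun i _ => ?_
          exact (Equiv.sum_comp φ
            (fun δ => a i (φ.symm δ) • conjAct (kappa p N₀ qv) (s δ) (b i))).symm
      _ = ∑ i, ∑ e, a i e • diamondU (isMid_KQ p N₀ qv) (uOfE e) (b i) := by
          refine Finset.sum_congr rfl fun i _ => ?_
          refine Finset.sum_congr rfl fun e _ => ?_
          rw [hfam, Equiv.symm_apply_apply]
          rfl
  refine ⟨n, fun i => ⟨b i, hbV i⟩, fun y => ?_⟩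
  have hy := hspan (y : Additive (KQ p N₀ qv) →+ 𝒪) y.2
  rw [Submodule.mem_span_range_iff_exists_fun] at hy
  obtain ⟨a', ha'⟩ := hy
  refine ⟨fun i e => a' (φ e, i), ?_, ?_⟩
  · show (y : Additive (KQ p N₀ qv) →+ 𝒪) =
      ∑ i, ∑ e, a' (φ e, i) • diamondU (isMid_KQ p N₀ qv) (uOfE e) (b i)
    rw [hsum, ← ha']
    refine Finset.sum_congr rfl fun z _ => ?_
    rw [Equiv.apply_symm_apply]
  · intro a₂ ha₂
    have ha₂' : (y : Additive (KQ p N₀ qv) →+ 𝒪) =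
        ∑ i, ∑ e, a₂ i e • diamondU (isMid_KQ p N₀ qv) (uOfE e) (b i) := ha₂
    rw [hsum] at ha₂'
    have hzero : ∑ z : Delta p qv × Fin n, (a₂ z.2 (φ.symm z.1) - a' z) •
        conjAct (kappa p N₀ qv) (s z.1) (b z.2) = 0 := by
      simp only [sub_smul, Finset.sum_sub_distrib]
      rw [← ha₂', ha', sub_self]
    have hall := Fintype.linearIndependent_iff.mp hli _ hzero
    funext i e
    have := hall (φ e, i)
    rw [Equiv.symm_apply_apply, sub_eq_zero] at this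
    exact this

/-- **`MFree.FreeConclusion` ⟹ exponent form**, for a projector `e` onto `V`
(`heV`, `hVe`: for `V` with `Aut.IsLocPart`, take `e` from `IsLocPart.exists_proj`).
The `Fintype` instance on `Δ_Q` is arbitrary. -/
theorem freeAt_of_conclusion (p : ℕ) [Fact p.Prime] (N₀ : ℕ) (hN₀ : N₀ ≠ 0) {r : ℕ}
    (qv : Fin r → ℕ) (hinj : Function.Injective qv) (hprime : ∀ j, (qv j).Prime)
    (𝒪 : Type) [CommRing 𝒪] [Fintype (Delta p qv)]
    (V : Submodule 𝒪 (Additive (KQ p N₀ qv) →+ 𝒪))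
    (e : (Additive (KQ p N₀ qv) →+ 𝒪) →ₗ[𝒪] (Additive (KQ p N₀ qv) →+ 𝒪))
    (heV : ∀ x, e x ∈ V) (hVe : ∀ x ∈ V, e x = x)
    (hc : FreeConclusion (kappa p N₀ qv) 𝒪 e)
    (g : ∀ j : Fin r, (ZMod (qv j))ˣ) (hg : ∀ j, orderOf (g j) = qv j - 1) :
    ∃ (d : ℕ) (b : Fin d → V), ∀ y : V,
      ∃! a : Fin d → (∀ j : Fin r, Fin (p ^ padicValNat p (qv j - 1))) → 𝒪,
        (y : Additive (KQ p N₀ qv) →+ 𝒪) =
          ∑ i, ∑ e, a i e • diamondU (isMid_KQ p N₀ qv)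
            (liftU N₀ qv (fun j => g j ^ (e j : ℕ))) (b i : Additive (KQ p N₀ qv) →+ 𝒪) := by
  exact freeAt_of_sections p N₀ hN₀ qv hinj hprime 𝒪 V
    (sectionsForm_of_conclusion (kappa p N₀ qv) 𝒪 V e heV hVe hc) g hg

/-- **`MFree.FreeConclusion` ⟹ `Aut.FreeAt V`** at the Taylor–Wiles level `Q`: any `p`, any
projector `e` onto `V`.  So `Aut.FreeQStatement` follows from ANY form of M-FREE applied to the
projector of `IsQPart PQ α V`. -/
theorem freeAtQ_of_conclusion (p : ℕ) [Fact p.Prime]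
    (𝒪 : Type) [CommRing 𝒪] [IsDomain 𝒪] [IsDiscreteValuationRing 𝒪]
    [IsAdicComplete (maximalIdeal 𝒪) 𝒪]
    (ρbar : ResidualGaloisRep (ResidueField 𝒪)) (Smin : Finset ℕ) (t : PType)
    [NeZero (wilesLevel p t Smin Smin)]
    (n r : ℕ) (qv : Fin r → ℕ) (hq : IsTWSet p ρbar Smin n qv)
    [NeZero (wilesLevel p t Smin (Smin ∪ Finset.univ.image qv))]
    [Fintype (Delta p qv)]
    (V : Submodule 𝒪 (XQ p t Smin qv 𝒪))
    (e : XQ p t Smin qv 𝒪 →ₗ[𝒪] XQ p t Smin qv 𝒪)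
    (heV : ∀ x, e x ∈ V) (hVe : ∀ x ∈ V, e x = x)
    (hc : FreeConclusion (kappa p (wilesLevel p t Smin Smin) qv) 𝒪 e) : FreeAt V := by
  obtain ⟨hinj, hqv, -⟩ := hq
  intro g hg
  exact freeAt_of_conclusion p (wilesLevel p t Smin Smin) (NeZero.ne _) qv hinj
    (fun j => (hqv j).1) 𝒪 V e heV hVe hc g hg

end Fermat.Agent.S59.TW.Aut.H181
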