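import Fermat.Agent.S59.TW.Aut.H181.FreeLoc
import Fermat.Agent.S59.TW.Aut.H181.DeltaQ

/-!
# S59 / TW / AUT, leaf FREE (helper181): freeness of the localisation of `X_{K_Q}(𝒪)` over
# `𝒪[Δ_Q]`, in the exponent form of `Aut.FreeAt`

`freeAt_core`: for ANY base level `N₀ ≠ 0` and any Taylor–Wiles type set `qv` (distinct primes), if
(Ell) holds for `κ_Q`, `V ⊆ X_{K_Q}(𝒪)` is the localisation at an eigen-system and
`T_l - (l + 1)` is bijective on `V` for some prime `l ∤ M_Q`, then for primitive roots `g_j` the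
module `V` has an `𝒪`-basis `⟨g^e⟩ b_i`, `e ∈ ∏ Fin (p^{m_j})`.
-/

set_option autoImplicit false

namespace Fermat.Agent.S59.TW.Aut.H181

open CongruenceSubgroup IsLocalRing
open Fermat.Agent.S59.TW.H653 Fermat.Agent.S59.MFree Fermat.Agent.S59.TW.Aut
open scoped MatrixGroups

theorem freeAt_core (p : ℕ) [Fact p.Prime] (N₀ : ℕ) (hN₀ : N₀ ≠ 0) {r : ℕ} (qv : Fin r → ℕ)
    (hinj : Function.Injective qv) (hprime : ∀ j, (qv j).Prime)
    (hell : ∀ γ : Gamma0 (bLevel N₀ qv), IsOfFinOrder γ → kappa p N₀ qv γ = 1)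
    (𝒪 : Type) [CommRing 𝒪] [IsDomain 𝒪] [IsDiscreteValuationRing 𝒪] [CharZero 𝒪]
    (hp : ¬ IsUnit (p : 𝒪))
    (Tset Uset : Set (ℕ × 𝒪)) (V : Submodule 𝒪 (Additive (KQ p N₀ qv) →+ 𝒪))
    (hV : IsLocPart (isMid_KQ p N₀ qv) Tset Uset V)
    (l : ℕ) [Fact l.Prime] (hl : ¬ l ∣ bLevel N₀ qv)
    (hs : ∀ y ∈ V, ∃ x ∈ V, TK (bLevel N₀ qv) (KQ p N₀ qv) l x - ((l : 𝒪) + 1) • x = y)
    (hi : ∀ x ∈ V, TK (bLevel N₀ qv) (KQ p N₀ qv) l x - ((l : 𝒪) + 1) • x = 0 → x = 0)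
    (g : ∀ j : Fin r, (ZMod (qv j))ˣ) (hg : ∀ j, orderOf (g j) = qv j - 1) :
    ∃ (d : ℕ) (b : Fin d → V), ∀ y : V,
      ∃! a : Fin d → (∀ j : Fin r, Fin (p ^ padicValNat p (qv j - 1))) → 𝒪,
        (y : Additive (KQ p N₀ qv) →+ 𝒪) =
          ∑ i, ∑ e, a i e • diamondU (isMid_KQ p N₀ qv)
            (liftU N₀ qv (fun j => g j ^ (e j : ℕ))) (b i : Additive (KQ p N₀ qv) →+ 𝒪) := by
  classical
  have hM : bLevel N₀ qv ≠ 0 :=
    Nat.mul_ne_zero hN₀ (Finset.prod_ne_zero_iff.mpr fun j _ => (hprime j).ne_zero)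
  have hNZ : NeZero (bLevel N₀ qv) := ⟨hM⟩
  have hfinD : Finite (Delta p qv) := finite_Delta p qv hprime
  let _ : Fintype (Delta p qv) := Fintype.ofFinite _
  have hcard : ∃ a : ℕ, Fintype.card (Delta p qv) = p ^ a := by
    obtain ⟨a, ha⟩ := card_Delta p qv hprime
    exact ⟨a, by rw [← Nat.card_eq_fintype_card, ha]⟩
  have hΓ1 := kappa_of_d_eq_one p N₀ qv
  obtain ⟨n, b, hbV, hfree⟩ := free_of_isLocPart p (bLevel N₀ qv) l hl hM (Delta p qv)
    (kappa p N₀ qv) (kappa_surjective p N₀ qv hN₀ hinj hprime) hcard hell hΓ1 𝒪 hp Tset Uset V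
    hV hs hi
  -- the exponents
  have hbij := epsQ_bijective (p := p) hprime g hg
  let ε : (∀ j : Fin r, Fin (p ^ padicValNat p (qv j - 1))) ≃ Delta p qv :=
    Equiv.ofBijective _ hbij
  let φ : (∀ j : Fin r, Fin (p ^ padicValNat p (qv j - 1))) ≃ Delta p qv :=
    ε.trans (Equiv.inv (Delta p qv))
  have hφ : ∀ e, φ e = (epsQ p qv g e)⁻¹ := fun e => rfl
  -- lifts
  let uOfE : (∀ j : Fin r, Fin (p ^ padicValNat p (qv j - 1))) → (ZMod (bLevel N₀ qv))ˣ :=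
    fun e => liftU N₀ qv (fun j => g j ^ (e j : ℕ))
  have hchi : ∀ e, chi p N₀ qv (uOfE e) = epsQ p qv g e := by
    intro e
    show QuotientGroup.mk (red N₀ qv (liftU N₀ qv (fun j => g j ^ (e j : ℕ)))) = _
    rw [red_liftU N₀ qv (red_surjective N₀ qv hN₀ hinj hprime _)]
    rfl
  -- the section
  let s : Delta p qv → Gamma0 (bLevel N₀ qv) :=
    fun δ => (sigma (bLevel N₀ qv) ((uOfE (φ.symm δ) : (ZMod (bLevel N₀ qv))ˣ) :
      ZMod (bLevel N₀ qv)).val)⁻¹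
  have hs : ∀ δ, kappa p N₀ qv (s δ) = δ := by
    intro δ
    show chi p N₀ qv (dUnit (bLevel N₀ qv) (s δ)) = δ
    rw [map_inv, dUnit_sigma_val, map_inv, hchi, ← hφ, Equiv.apply_symm_apply]
  obtain ⟨hli, hspan⟩ := hfree s hs
  have hfam : ∀ (δ : Delta p qv) (i : Fin n),
      conjAct (kappa p N₀ qv) (s δ) (b i) =
        diamondU (isMid_KQ p N₀ qv) (uOfE (φ.symm δ)) (b i) := by
    intro δ i
    rw [conjAct_eq_diamond (kappa p N₀ qv) hΓ1]
    show diamond _ (s δ)⁻¹ (b i) = diamond _ _ (b i)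
    rw [inv_inv]
  -- sums
  have hsum : ∀ a : Fin n → (∀ j : Fin r, Fin (p ^ padicValNat p (qv j - 1))) → 𝒪,
      ∑ i, ∑ e, a i e • diamondU (isMid_KQ p N₀ qv) (uOfE e) (b i) =
        ∑ z : Delta p qv × Fin n, a z.2 (φ.symm z.1) •
          conjAct (kappa p N₀ qv) (s z.1) (b z.2) := by
    intro a
    symm
    calc ∑ z : Delta p qv × Fin n, a z.2 (φ.symm z.1) • conjAct (kappa p N₀ qv) (s z.1) (b z.2)
        = ∑ δ : Delta p qv, ∑ i : Fin n,
            a i (φ.symm δ) • conjAct (kappa p N₀ qv) (s δ) (b i) :=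
          Fintype.sum_prod_type _
      _ = ∑ i : Fin n, ∑ δ : Delta p qv,
            a i (φ.symm δ) • conjAct (kappa p N₀ qv) (s δ) (b i) := Finset.sum_comm
      _ = ∑ i : Fin n, ∑ e, a i (φ.symm (φ e)) • conjAct (kappa p N₀ qv) (s (φ e)) (b i) := by
          refine Finset.sum_congr rfl fun i _ => ?_
          exact (Equiv.sum_comp φ
            (fun δ => a i (φ.symm δ) • conjAct (kappa p N₀ qv) (s δ) (b i))).symm
      _ = ∑ i, ∑ e, a i e • diamondU (isMid_KQ p N₀ qv) (uOfE e) (b i) := by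
          refine Finset.sum_congr rfl fun i _ => ?_
          refine Finset.sum_congr rfl fun e _ => ?_
          rw [hfam, Equiv.symm_apply_apply]
          rfl
  refine ⟨n, fun i => ⟨b i, hbV i⟩, fun y => ?_⟩
  have hy := hspan (y : Additive (KQ p N₀ qv) →+ 𝒪) y.2
  rw [Submodule.mem_span_range_iff_exists_fun] at hy
  obtain ⟨a', ha'⟩ := hy
  refine ⟨fun i e => a' (φ e, i), ?_, ?_⟩
  · show (y : Additive (KQ p N₀ qv) →+ 𝒪) =
      ∑ i, ∑ e, a' (φ e, i) • diamondU (isMid_KQ p N₀ qv) (uOfE e) (b i)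
    rw [hsum, ← ha']
    refine Finset.sum_congr rfl fun z _ => ?_
    rw [Equiv.apply_symm_apply]
  · intro a₂ ha₂
    have ha₂' : (y : Additive (KQ p N₀ qv) →+ 𝒪) =
        ∑ i, ∑ e, a₂ i e • diamondU (isMid_KQ p N₀ qv) (uOfE e) (b i) := ha₂
    rw [hsum] at ha₂'
    have hzero : ∑ z : Delta p qv × Fin n, (a₂ z.2 (φ.symm z.1) - a' z) •
        conjAct (kappa p N₀ qv) (s z.1) (b z.2) = 0 := by
      simp only [sub_smul, Finset.sum_sub_distrib]
      rw [← ha₂', ha', sub_self]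
    have hall := Fintype.linearIndependent_iff.mp hli _ hzero
    funext i e
    have := hall (φ e, i)
    rw [Equiv.symm_apply_apply, sub_eq_zero] at this
    exact this

end Fermat.Agent.S59.TW.Aut.H181
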