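import Fermat.Agent.S59.MFree.Main
import Fermat.Agent.S59.TW.H653.Bridge587
import Fermat.Agent.S59.TW.Aut.Spec

/-!
# S59 / TW / AUT, leaf FREE (helper181): freeness of a localisation of `X_K(𝒪)` over `𝒪[D]`

`κ : Γ₀(M) →* D` onto a finite `p`-group, trivial on `Γ₁(M)` and on the elements of finite order
(hypothesis (Ell)), `K = ker κ`.  If `V ⊆ X_K(𝒪)` is the localisation at an eigen-system
(`Aut.IsLocPart`) and `T_l - (l + 1)` is bijective on `V` for some prime `l ∤ M` (non-Eisenstein;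
the auxiliary prime is `Aut.H31.exists_auxPrime_h31`), then `V` is free over `𝒪[D]`: it has an
`𝒪`-basis `⟨d⟩ b_i` (`free_of_isLocPart`).

This is `MFree.free` (helper761, helper587) for the projector of `IsLocPart`.
-/

set_option autoImplicit false

namespace Fermat.Agent.S59.TW.Aut.H181

open CongruenceSubgroup IsLocalRing
open Fermat.Agent.S59.TW.H653 Fermat.Agent.S59.MFree Fermat.Agent.S59.MFree.H587
open scoped MatrixGroups

/-! ## The freeness theorem -/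

section Free

variable {M : ℕ} {D : Type} [Group D]

/-- `Γ' = ker κ` has finite index in `SL(2, ℤ)`. -/
theorem finiteIndex_kerSub [NeZero M] [Finite D] (κ : Gamma0 M →* D) :
    (kerSub κ).FiniteIndex := by
  have h1 : κ.ker.FiniteIndex := inferInstance
  have h2 : (Gamma0 M).FiniteIndex := inferInstance
  constructor
  unfold kerSub
  rw [Subgroup.index_map_subtype]
  exact mul_ne_zero h1.index_ne_zero h2.index_ne_zero

/-- **Freeness of the localisation** over `𝒪[D]`. -/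
theorem free_of_isLocPart (p M l : ℕ) [Fact p.Prime] [Fact l.Prime] (hl : ¬ l ∣ M) (hM : M ≠ 0)
    (D : Type) [Group D] [Fintype D] (κ : Gamma0 M →* D)
    (hκ : Function.Surjective κ) (hcard : ∃ a : ℕ, Fintype.card D = p ^ a)
    (hell : ∀ g : Gamma0 M, IsOfFinOrder g → κ g = 1)
    (hΓ1 : ∀ γ : Gamma0 M, ((((γ : SL(2, ℤ)) 1 1 : ℤ)) : ZMod M) = 1 → κ γ = 1)
    (𝒪 : Type) [CommRing 𝒪] [IsDomain 𝒪] [IsDiscreteValuationRing 𝒪] [CharZero 𝒪]
    (hp : ¬ IsUnit (p : 𝒪))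
    (Tset Uset : Set (ℕ × 𝒪)) (V : Submodule 𝒪 (Additive (kerSub κ) →+ 𝒪))
    (hV : IsLocPart (isMid_kerSub κ hΓ1) Tset Uset V)
    (hs : ∀ y ∈ V, ∃ x ∈ V, TK M (kerSub κ) l x - ((l : 𝒪) + 1) • x = y)
    (hi : ∀ x ∈ V, TK M (kerSub κ) l x - ((l : 𝒪) + 1) • x = 0 → x = 0) :
    ∃ (n : ℕ) (b : Fin n → (Additive (kerSub κ) →+ 𝒪)), (∀ i, b i ∈ V) ∧
      ∀ s : D → Gamma0 M, (∀ d, κ (s d) = d) →
        LinearIndependent 𝒪 (fun z : D × Fin n => conjAct κ (s z.1) (b z.2)) ∧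
        ∀ x ∈ V, x ∈ Submodule.span 𝒪
          (Set.range fun z : D × Fin n => conjAct κ (s z.1) (b z.2)) := by
  classical
  have hNZ : NeZero M := ⟨hM⟩
  obtain ⟨e, he, heV, hVe, hT, -, hdia, -⟩ := hV.exists_proj
  have hTK : ∀ x, heckeKerLin hl κ hΓ1 𝒪 x = TK M (kerSub κ) l x :=
    fun x => heckeKer_eq_TK hl κ hΓ1 x
  have het : ∀ x, e (heckeKerLin hl κ hΓ1 𝒪 x) = heckeKerLin hl κ hΓ1 𝒪 (e x) := by
    intro x
    rw [hTK, hTK]
    exact hT l hl x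
  have hec : ∀ (g : Gamma0 M) x, e (conjAct κ g x) = conjAct κ g (e x) := by
    intro g x
    rw [conjAct_eq_diamond κ hΓ1, conjAct_eq_diamond κ hΓ1, diamond_eq_diamondU,
      diamond_eq_diamondU]
    exact hdia _ x
  have hmemV : ∀ x, e x = x ↔ x ∈ V := fun x =>
    ⟨fun h => h ▸ heV x, fun h => hVe x h⟩
  have hsurj : ∀ y, e y = y →
      ∃ x, e x = x ∧ heckeKerLin hl κ hΓ1 𝒪 x - ((l : 𝒪) + 1) • x = y := by
    intro y hy
    obtain ⟨x, hx, hxy⟩ := hs y ((hmemV y).mp hy)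
    exact ⟨x, (hmemV x).mpr hx, by rw [hTK, hxy]⟩
  have hinj : ∀ x, e x = x → heckeKerLin hl κ hΓ1 𝒪 x - ((l : 𝒪) + 1) • x = 0 → x = 0 := by
    intro x hx h0
    exact hi x ((hmemV x).mp hx) (by rw [← hTK, h0])
  obtain ⟨⟨n, b, hb, hfree⟩, -, -⟩ :=
    free_heckeKer p M l hl hM D κ hκ hcard hell hΓ1 𝒪 hp e he het hec hsurj hinj
  refine ⟨n, b, fun i => (hmemV _).mp (hb i), fun s hs => ?_⟩
  obtain ⟨h1, h2⟩ := hfree s hs
  exact ⟨h1, fun x hx => h2 x ((hmemV x).mpr hx)⟩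

end Free

end Fermat.Agent.S59.TW.Aut.H181
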