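import Fermat.Agent.S59.TW.Aut.H181.FreeCore
import Fermat.Agent.S59.TW.Aut.H181.Ell
import Fermat.Agent.S59.TW.Aut.H31.AuxPrime

/-!
# S59 / TW / AUT, leaf FREE (helper181): `Aut.FreeQStatement` under hypothesis (Ell)

* `freeAt_of_ell` : the conclusion `FreeAt V` of `Aut.FreeQStatement`, VERBATIM hypotheses, plus
  hypothesis (Ell): `κ_Q` is trivial on the elements of finite order of `Γ₀(M_Q)`;
* `ell_of_five_le` : (Ell) holds for `p ≥ 5`;
* `freeQ_of_five_le` : `Aut.FreeQStatement` for `p ≥ 5`.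

The auxiliary non-Eisenstein prime `l` is `Aut.H31.exists_auxPrime_Q_h31` (helper31).
-/

set_option autoImplicit false

namespace Fermat.Agent.S59.TW.Aut.H181

open Polynomial IsLocalRing CongruenceSubgroup
open Fermat.Agent.S59.Arch Fermat.Agent.S59.TW.H959 Fermat.Agent.S59.TW.H653
open Fermat.Agent.S59.TW.Aut
open scoped MatrixGroups

/-- (Ell) for `p ≥ 5`. -/
theorem ell_of_five_le (p : ℕ) [Fact p.Prime] (hp5 : 5 ≤ p) (N₀ : ℕ) {r : ℕ} (qv : Fin r → ℕ)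
    (hprime : ∀ j, (qv j).Prime) (γ : Gamma0 (bLevel N₀ qv)) (hγ : IsOfFinOrder γ) :
    kappa p N₀ qv γ = 1 := by
  have hfin := finite_Delta p qv hprime
  obtain ⟨a, ha⟩ := card_Delta p qv hprime
  apply ell_of_coprime _ (kappa p N₀ qv) γ hγ
  rw [ha]
  apply Nat.Coprime.pow_left
  have hpp : p.Prime := Fact.out
  have h12 : (12 : ℕ) = 2 ^ 2 * 3 := by norm_num
  rw [h12]
  apply Nat.Coprime.mul_right
  · apply Nat.Coprime.pow_right
    rw [Nat.coprime_primes hpp Nat.prime_two]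
    omega
  · rw [Nat.coprime_primes hpp Nat.prime_three]
    omega

/-- **FREE under (Ell)**: the statement of `Aut.FreeQStatement` with the extra hypothesis that
`κ_Q` is trivial on the elements of finite order. -/
theorem freeAt_of_ell (p : ℕ) [Fact p.Prime]
    (𝒪 : Type) [CommRing 𝒪] [IsDomain 𝒪] [IsDiscreteValuationRing 𝒪]
    [IsAdicComplete (maximalIdeal 𝒪) 𝒪] [Finite (ResidueField 𝒪)] [CharZero 𝒪]
    (ρbar : ResidualGaloisRep (ResidueField 𝒪)) (Smin : Finset ℕ)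
    (h : ResidualHyp p 𝒪 ρbar Smin) (t : PType)
    [NeZero (wilesLevel p t Smin Smin)]
    (n r : ℕ) (qv : Fin r → ℕ) (hq : IsTWSet p ρbar Smin n qv)
    [NeZero (wilesLevel p t Smin (Smin ∪ Finset.univ.image qv))]
    (PQ : HeckePkg p 𝒪 ρbar t Smin (Smin ∪ Finset.univ.image qv))
    (α : Fin r → 𝒪)
    (hell : ∀ γ : Gamma0 (bLevel (wilesLevel p t Smin Smin) qv), IsOfFinOrder γ →
      kappa p (wilesLevel p t Smin Smin) qv γ = 1)
    (V : Submodule 𝒪 (XQ p t Smin qv 𝒪)) (hV : IsQPart PQ α V) : FreeAt V := by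
  classical
  obtain ⟨hinj, hqv, -⟩ := hq
  have hprime : ∀ j, (qv j).Prime := fun j => (hqv j).1
  have hN₀ : wilesLevel p t Smin Smin ≠ 0 := NeZero.ne _
  have hM : bLevel (wilesLevel p t Smin Smin) qv ≠ 0 :=
    Nat.mul_ne_zero hN₀ (Finset.prod_ne_zero_iff.mpr fun j _ => (hprime j).ne_zero)
  have hpu : ¬ IsUnit (p : 𝒪) := fun hu => (mem_maximalIdeal _).mp h.hp𝒪 hu
  obtain ⟨l, hlF, c, -, hlM, -, -, -, -, -, hs, hi⟩ :=
    Fermat.Agent.S59.TW.Aut.H31.exists_auxPrime_Q_h31 h PQ hM hV 1 Nat.one_pos ∅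
  intro g hg
  exact freeAt_core p (wilesLevel p t Smin Smin) hN₀ qv hinj hprime hell 𝒪 hpu (TsetOf PQ)
    (UsetOf qv α) V hV l hlM hs hi g hg

/-- **`Aut.FreeQStatement` for `p ≥ 5`.** -/
theorem freeQ_of_five_le (p : ℕ) [Fact p.Prime] (hp5 : 5 ≤ p)
    (𝒪 : Type) [CommRing 𝒪] [IsDomain 𝒪] [IsDiscreteValuationRing 𝒪]
    [IsAdicComplete (maximalIdeal 𝒪) 𝒪] [Finite (ResidueField 𝒪)] [CharZero 𝒪]
    (ρbar : ResidualGaloisRep (ResidueField 𝒪)) (Smin : Finset ℕ)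
    (h : ResidualHyp p 𝒪 ρbar Smin) (t : PType)
    [NeZero (wilesLevel p t Smin Smin)]
    (n r : ℕ) (qv : Fin r → ℕ) (hq : IsTWSet p ρbar Smin n qv)
    [NeZero (wilesLevel p t Smin (Smin ∪ Finset.univ.image qv))]
    (PQ : HeckePkg p 𝒪 ρbar t Smin (Smin ∪ Finset.univ.image qv))
    (α : Fin r → 𝒪)
    (V : Submodule 𝒪 (XQ p t Smin qv 𝒪)) (hV : IsQPart PQ α V) : FreeAt V :=
  freeAt_of_ell p 𝒪 ρbar Smin h t n r qv hq PQ α
    (ell_of_five_le p hp5 (wilesLevel p t Smin Smin) qv (fun j => (hq.2.1 j).1)) V hV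

end Fermat.Agent.S59.TW.Aut.H181
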